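import Mathlib

/-!
# Row LT, tower T7, leaf T7.14.6a-F.6.5 `CalcC216` (registry 2163) -- Mathlib-only core (helper171)

OFF-MAIN.  The two one-variable lower integrals of `H216.CalcC216`
(spec helper216@8929b2109 `LT/T7/H216/BoxSpec.lean`, sha256 760ee146fd99e7ce), proved over
Mathlib only.  The thin wrapper `Calc.lean` states `H216.CalcC216` verbatim.
-/

set_option autoImplicit false

open MeasureTheory Set
open scoped ENNReal

namespace Fermat.Agent.LT.T7.H171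

/-- `∫_{t ≥ Y} t⁻² dt < ∞`, as a lower integral over `(0, ∞)`. -/
theorem calc_tail171 (Y : ℝ) (hY : 0 < Y) :
    ∫⁻ t in Set.Ioi (0 : ℝ),
      ENNReal.ofReal t⁻¹ * (Set.Ici Y).indicator (fun u : ℝ => ENNReal.ofReal u⁻¹) t < ⊤ := by
  have hint : IntegrableOn (fun t : ℝ => t ^ (-2 : ℝ)) (Set.Ioi Y) :=
    integrableOn_Ioi_rpow_of_lt (by norm_num) hY
  have hint' : IntegrableOn (fun t : ℝ => t ^ (-2 : ℝ)) (Set.Ici Y) :=
    Iff.mpr integrableOn_Ici_iff_integrableOn_Ioi hint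
  have hlt : ∫⁻ t in Set.Ici Y, ENNReal.ofReal (t ^ (-2 : ℝ)) < ⊤ :=
    hint'.setLIntegral_lt_top
  refine lt_of_le_of_lt ?_ hlt
  rw [← lintegral_indicator measurableSet_Ici, ← lintegral_indicator measurableSet_Ioi]
  refine lintegral_mono fun t => ?_
  by_cases ht : t ∈ Set.Ici Y
  · have ht0 : 0 < t := lt_of_lt_of_le hY ht
    have hinv : 0 ≤ t⁻¹ := inv_nonneg.mpr ht0.le
    rw [Set.indicator_of_mem (show t ∈ Set.Ioi (0 : ℝ) from ht0), Set.indicator_of_mem ht,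
      Set.indicator_of_mem ht, ← ENNReal.ofReal_mul hinv]
    refine le_of_eq (congrArg ENNReal.ofReal ?_)
    rw [Real.rpow_neg ht0.le, Real.rpow_two, sq, mul_inv]
  · rw [Set.indicator_of_notMem ht]
    by_cases ht0 : t ∈ Set.Ioi (0 : ℝ)
    · rw [Set.indicator_of_mem ht0, Set.indicator_of_notMem ht, mul_zero]
    · rw [Set.indicator_of_notMem ht0]

/-- `∫_{t > 0, 1 ≤ c t² < 2} dt / t = log 2 / 2`, as a lower integral over `(0, ∞)`. -/
theorem calc_shell171 (c : ℝ) (hc : 0 < c) :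
    ∫⁻ t in Set.Ioi (0 : ℝ),
      ENNReal.ofReal t⁻¹ *
        {u : ℝ | 1 ≤ c * u ^ 2 ∧ c * u ^ 2 < 2}.indicator (fun _ : ℝ => (1 : ℝ≥0∞)) t
      = ENNReal.ofReal (Real.log 2 / 2) := by
  have hsc : 0 < Real.sqrt c := Real.sqrt_pos.mpr hc
  have hs2 : 0 < Real.sqrt 2 := Real.sqrt_pos.mpr (by norm_num)
  have hsq : Real.sqrt c * Real.sqrt c = c := Real.mul_self_sqrt hc.le
  have hsq2 : Real.sqrt 2 * Real.sqrt 2 = 2 := Real.mul_self_sqrt (by norm_num)
  set a : ℝ := (Real.sqrt c)⁻¹ with ha_def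
  set b : ℝ := Real.sqrt 2 / Real.sqrt c with hb_def
  have ha : 0 < a := inv_pos.mpr hsc
  have hb : 0 < b := div_pos hs2 hsc
  have h12 : (1 : ℝ) ≤ Real.sqrt 2 := by
    rw [show (1 : ℝ) = Real.sqrt 1 from Real.sqrt_one.symm]
    exact Real.sqrt_le_sqrt (by norm_num)
  have hab : a ≤ b := by
    rw [ha_def, hb_def, inv_eq_one_div]
    exact div_le_div_of_nonneg_right h12 hsc.le
  -- membership in the shell
  have hmem : ∀ t : ℝ, 0 < t → ((1 ≤ c * t ^ 2 ∧ c * t ^ 2 < 2) ↔ t ∈ Set.Ico a b) := by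
    intro t ht
    have hct : c * t ^ 2 = (Real.sqrt c * t) ^ 2 := by
      rw [mul_pow, sq (Real.sqrt c), hsq]
    have hpos : 0 ≤ Real.sqrt c * t := (mul_pos hsc ht).le
    rw [Set.mem_Ico, hct, ha_def, hb_def, inv_eq_one_div, div_le_iff₀ hsc, lt_div_iff₀ hsc,
      mul_comm t (Real.sqrt c)]
    constructor
    · rintro ⟨h1, h2⟩
      refine ⟨?_, ?_⟩
      · by_contra hlt
        have hlt' := not_le.mp hlt
        nlinarith
      · by_contra hge
        have hge' := not_lt.mp hge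
        nlinarith
    · rintro ⟨h1, h2⟩
      refine ⟨by nlinarith, by nlinarith⟩
  -- rewrite the integrand
  have h1 : ∫⁻ t in Set.Ioi (0 : ℝ),
      ENNReal.ofReal t⁻¹ *
        {u : ℝ | 1 ≤ c * u ^ 2 ∧ c * u ^ 2 < 2}.indicator (fun _ : ℝ => (1 : ℝ≥0∞)) t
      = ∫⁻ t in Set.Ico a b, ENNReal.ofReal t⁻¹ := by
    rw [← lintegral_indicator measurableSet_Ioi, ← lintegral_indicator measurableSet_Ico]
    refine lintegral_congr fun t => ?_
    by_cases ht0 : t ∈ Set.Ioi (0 : ℝ)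
    · rw [Set.indicator_of_mem ht0]
      by_cases ht : t ∈ Set.Ico a b
      · have ht' : t ∈ {u : ℝ | 1 ≤ c * u ^ 2 ∧ c * u ^ 2 < 2} := (hmem t ht0).mpr ht
        rw [Set.indicator_of_mem ht, Set.indicator_of_mem ht', mul_one]
      · have ht' : t ∉ {u : ℝ | 1 ≤ c * u ^ 2 ∧ c * u ^ 2 < 2} := fun h => ht ((hmem t ht0).mp h)
        rw [Set.indicator_of_notMem ht, Set.indicator_of_notMem ht', mul_zero]
    · have ht : t ∉ Set.Ico a b := fun h => ht0 (lt_of_lt_of_le ha h.1)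
      rw [Set.indicator_of_notMem ht0, Set.indicator_of_notMem ht]
  -- the interval integral
  have hcont : ContinuousOn (fun t : ℝ => t⁻¹) (Set.Icc a b) :=
    continuousOn_inv₀.mono fun t ht => ne_of_gt (lt_of_lt_of_le ha ht.1)
  have hintIcc : IntegrableOn (fun t : ℝ => t⁻¹) (Set.Icc a b) :=
    hcont.integrableOn_Icc
  have hintIco : IntegrableOn (fun t : ℝ => t⁻¹) (Set.Ico a b) :=
    hintIcc.mono_set Set.Ico_subset_Icc_self
  have hnn : 0 ≤ᵐ[volume.restrict (Set.Ico a b)] fun t : ℝ => t⁻¹ := by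
    refine (ae_restrict_iff' measurableSet_Ico).mpr (Filter.Eventually.of_forall fun t ht => ?_)
    exact inv_nonneg.mpr (lt_of_lt_of_le ha ht.1).le
  have h2 : ∫⁻ t in Set.Ico a b, ENNReal.ofReal t⁻¹
      = ENNReal.ofReal (∫ t in Set.Ico a b, t⁻¹) :=
    (ofReal_integral_eq_lintegral_ofReal hintIco hnn).symm
  have h3 : ∫ t in Set.Ico a b, t⁻¹ = ∫ t in a..b, t⁻¹ := by
    rw [intervalIntegral.integral_of_le hab, integral_Ico_eq_integral_Ioc]
  have h4 : ∫ t in a..b, t⁻¹ = Real.log (b / a) := integral_inv_of_pos ha hb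
  have h5 : b / a = Real.sqrt 2 := by
    rw [ha_def, hb_def]
    field_simp
  rw [h1, h2, h3, h4, h5, Real.log_sqrt (by norm_num)]

end Fermat.Agent.LT.T7.H171
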