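import Fermat.Agent.LT.T7.H216.BoxSpec
import Fermat.Agent.LT.T7.H171.CalcCore

/-!
# Row LT, tower T7, leaf T7.14.6a-F.6.5 `CalcC216` (registry 2163) -- CLOSED (helper171)

OFF-MAIN.  `calcC216_171 : H216.CalcC216`, verbatim against
helper216@8929b2109 `LT/T7/H216/BoxSpec.lean` (sha256 760ee146fd99e7ce).
-/

set_option autoImplicit false

namespace Fermat.Agent.LT.T7.H171

/-- **T7.14.6a-F.6.5**: the two one-variable lower integrals. -/
theorem calcC216_171 : Fermat.Agent.LT.T7.H216.CalcC216 :=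
  ⟨calc_tail171, calc_shell171⟩

end Fermat.Agent.LT.T7.H171
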