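import Fermat.Agent.LT.T7.H216.BoxTop

/-!
# Row LT, tower T7, leaf T7.14.6a-F.6.3 `NormInvC216` (registry 2161) -- helper171

OFF-MAIN.  `normInvC216_171 K : H216.NormInvC216 K`, verbatim against
helper216@8929b2109 `LT/T7/H216/BoxSpec.lean` (sha256 760ee146fd99e7ce).

Route: `y₀` of norm `s`; `τ (FX ∩ nrm⁻¹ (s⁻¹ A)) = τ (y₀ FX ∩ nrm⁻¹ A)` (left invariance)
`= τ (FX ∩ nrm⁻¹ A)` (`IsFundamentalDomain.smul_of_comm`, `measure_set_eq`; `nrm⁻¹ A` is
`Kˣ`-invariant by the product formula `T1.AdNormC`).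
-/

set_option autoImplicit false
set_option linter.style.haveILetI false

open AutomorphicForm IsDedekindDomain NumberField Filter Topology MeasureTheory
open scoped ComplexConjugate ENNReal Pointwise

noncomputable section

namespace Fermat.Agent.LT.T7.H171

open Fermat.Agent.LT.H556 Fermat.Agent.LT.H556.A0 Fermat.Agent.LT.T7 Fermat.Agent.LT.T7.Rigid
open Fermat.Agent.LT.T7.H57 Fermat.Agent.LT.T7.H216

variable {K : Type} [Field K] [NumberField K]

theorem nrm57_mul171 (hN : Fermat.Agent.LT.T1.AdNormC K) (x y : (Adl K)ˣ) :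
    nrm57 K (x * y) = nrm57 K x * nrm57 K y :=
  hN.2.1 x y

theorem nrm57_rat171 (hN : Fermat.Agent.LT.T1.AdNormC K) (ξ : Kˣ) :
    nrm57 K (ratU57 K ξ) = 1 :=
  hN.2.2.1 ξ

/-- **T7.14.6a-F.6.3**: the push-forward of `τ|FX` under the idele norm is invariant under all
dilations. -/
theorem normInvC216_171 (K : Type) [Field K] [NumberField K] : NormInvC216 K := by
  letI : MeasurableSpace (Adl K)ˣ := borel (Adl K)ˣ
  haveI : BorelSpace (Adl K)ˣ := ⟨rfl⟩
  intro hT hex τ hτ FX hFXm hFX s hs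
  haveI := hτ
  haveI := countable_ratU216 K
  have hN := hT.adNorm
  have hnc : Continuous (nrm57 K) := continuous_nrm57_216 hN
  have hnm : Measurable (nrm57 K) := hnc.measurable
  have hsm : Measurable fun t : ℝ => s * t := measurable_const_mul s
  obtain ⟨y₀, hy₀⟩ := hex s hs
  haveI : SMulCommClass (Adl K)ˣ (ratU57 K).range (Adl K)ˣ :=
    ⟨fun g h x => by
      simp only [Subgroup.smul_def, smul_eq_mul]
      exact mul_left_comm _ _ _⟩
  have hFX' : IsFundamentalDomain (ratU57 K).range (y₀ • FX) τ := hFX.smul_of_comm y₀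
  refine Measure.ext fun A hA => ?_
  rw [Measure.map_apply hsm hA, pushN216, Measure.map_apply hnm (hsm hA),
    Measure.map_apply hnm hA, Measure.restrict_apply (hnm (hsm hA)),
    Measure.restrict_apply (hnm hA)]
  -- the invariant set
  set B : Set (Adl K)ˣ := nrm57 K ⁻¹' A with hB
  have hBm : MeasurableSet B := hnm hA
  have hBinv : ∀ g : (ratU57 K).range, (fun x : (Adl K)ˣ => g • x) ⁻¹' B = B := by
    rintro ⟨g, ξ, rfl⟩
    ext x
    simp only [hB, Set.mem_preimage, Subgroup.smul_def, smul_eq_mul]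
    rw [nrm57_mul171 hN, nrm57_rat171 hN, one_mul]
  have h1 : nrm57 K ⁻¹' ((fun t : ℝ => s * t) ⁻¹' A) ∩ FX
      = (fun x : (Adl K)ˣ => y₀ * x) ⁻¹' (B ∩ y₀ • FX) := by
    ext x
    simp only [hB, Set.mem_inter_iff, Set.mem_preimage, nrm57_mul171 hN, hy₀]
    refine and_congr_right fun _ => ?_
    constructor
    · intro hx
      exact ⟨x, hx, rfl⟩
    · rintro ⟨z, hz, hzx⟩
      have hzx' : y₀ * z = y₀ * x := hzx
      have : z = x := mul_left_cancel hzx'
      exact this ▸ hz
  rw [h1, measure_preimage_mul]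
  exact hFX'.measure_set_eq hFX hBm hBinv

end Fermat.Agent.LT.T7.H171

end
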