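import Fermat.Agent.LT.T7.H216.BoxTop
import Fermat.Agent.LT.T7.H171.NormInv

/-!
# Row LT, tower T7, leaf T7.14.6a-F.6.4 `NormFinC216` (registry 2162) -- helper171

OFF-MAIN.  `normFinC216_171 K : H216.NormFinC216 K`, verbatim against
helper216@8929b2109 `LT/T7/H216/BoxSpec.lean` (sha256 760ee146fd99e7ce).

Route: `C` from `T1.FujisakiC`, `B = C · j [a, b]` compact, `nrm⁻¹ [a, b] ⊆ Kˣ · B`,
`τ (FX ∩ Kˣ B) ≤ ∑_g τ (g B ∩ FX) = τ B < ∞` (`IsFundamentalDomain.measure_eq_tsum`).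
-/

set_option autoImplicit false
set_option linter.style.haveILetI false

open AutomorphicForm IsDedekindDomain NumberField Filter Topology MeasureTheory
open scoped ComplexConjugate ENNReal Pointwise

noncomputable section

namespace Fermat.Agent.LT.T7.H171

open Fermat.Agent.LT.H556 Fermat.Agent.LT.H556.A0 Fermat.Agent.LT.T7 Fermat.Agent.LT.T7.Rigid
open Fermat.Agent.LT.T7.H57 Fermat.Agent.LT.T7.H216

variable {K : Type} [Field K] [NumberField K]

/-- **T7.14.6a-F.6.4**: the push-forward of `τ|FX` under the idele norm is finite on the compact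
intervals of `(0, ∞)`. -/
theorem normFinC216_171 (K : Type) [Field K] [NumberField K] : NormFinC216 K := by
  letI : MeasurableSpace (Adl K)ˣ := borel (Adl K)ˣ
  haveI : BorelSpace (Adl K)ˣ := ⟨rfl⟩
  intro hT hray τ hτ FX hFXm hFX a b ha hab
  haveI := hτ
  haveI := countable_ratU216 K
  have hN := hT.adNorm
  have hnc : Continuous (nrm57 K) := continuous_nrm57_216 hN
  have hnm : Measurable (nrm57 K) := hnc.measurable
  obtain ⟨j, hjc, hj⟩ := hray
  obtain ⟨C, hC, hCex⟩ := hT.fujisaki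
  -- the compact set
  have hIcc : Set.Icc a b ⊆ Set.Ioi (0 : ℝ) := fun t ht => lt_of_lt_of_le ha ht.1
  have hJ : IsCompact (j '' Set.Icc a b) := isCompact_Icc.image_of_continuousOn (hjc.mono hIcc)
  set B : Set (Adl K)ˣ := (fun p : (Adl K)ˣ × (Adl K)ˣ => p.1 * p.2) '' (C ×ˢ (j '' Set.Icc a b))
    with hB
  have hBc : IsCompact B := (hC.prod hJ).image continuous_mul
  have hBfin : τ B < ⊤ := hBc.measure_lt_top
  -- the covering
  have hcov : nrm57 K ⁻¹' Set.Icc a b ∩ FX ⊆ ⋃ g : (ratU57 K).range, (g • B ∩ FX) := by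
    rintro y ⟨hy, hyF⟩
    have hy' : nrm57 K y ∈ Set.Icc a b := hy
    set t : ℝ := nrm57 K y with ht
    have ht0 : 0 < t := hIcc hy'
    have hjt : nrm57 K (j t) = t := hj t ht0
    have hone : nrm57 K (y * (j t)⁻¹) = 1 := by
      have h1 : nrm57 K (y * (j t)⁻¹) * nrm57 K (j t) = nrm57 K y := by
        rw [← nrm57_mul171 hN, inv_mul_cancel_right]
      rw [hjt, ← ht] at h1
      exact mul_right_cancel₀ (ne_of_gt ht0) (by rw [h1, one_mul])
    obtain ⟨ξ, hξ⟩ := hCex (y * (j t)⁻¹) hone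
    have hξ' : (ratU57 K ξ)⁻¹ * (y * (j t)⁻¹) ∈ C := hξ
    refine Set.mem_iUnion.mpr ⟨⟨ratU57 K ξ, ξ, rfl⟩, ⟨?_, hyF⟩⟩
    refine ⟨(ratU57 K ξ)⁻¹ * (y * (j t)⁻¹) * j t, ?_, ?_⟩
    · exact ⟨((ratU57 K ξ)⁻¹ * (y * (j t)⁻¹), j t), ⟨hξ', ⟨t, hy', rfl⟩⟩, rfl⟩
    · show ratU57 K ξ * ((ratU57 K ξ)⁻¹ * (y * (j t)⁻¹) * j t) = y
      group
  rw [pushN216, Measure.map_apply hnm measurableSet_Icc, Measure.restrict_apply
    (hnm measurableSet_Icc)]
  calc τ (nrm57 K ⁻¹' Set.Icc a b ∩ FX)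
      ≤ τ (⋃ g : (ratU57 K).range, (g • B ∩ FX)) := measure_mono hcov
    _ ≤ ∑' g : (ratU57 K).range, τ (g • B ∩ FX) := measure_iUnion_le _
    _ = τ B := (hFX.measure_eq_tsum B).symm
    _ < ⊤ := hBfin

end Fermat.Agent.LT.T7.H171

end
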